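/-
GATE-N / S48 J1-PORT, node P3-DICT-INT-K (helper96): **the interior place dictionary** of a field
`F / K` realised by `Γ`-invariant meromorphic functions on `ℍ` (`Z : Realization1 K jF Γ`,
`DS/P3/DictIntK/OrbitK.lean`), from the orbit lemma.

* `exists_place_of_point` : every point `τ` with `j(τ) ∈ ι(K)` gives a place `P` of `F` and `e > 0`
  with `ord_τ (R f) = e · ord_P f` (no hypothesis);
* `exists_point_of_place_center` : EXHAUSTION — if the conjugate embeddings are distinct and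
  `[F : K(j)] = #(SL₂(ℤ)/Γ)`, every place `v` with `ord_v (j - c) > 0` is of this form;
* `exists_point_of_place` : the same for every place at which `j` has no pole;
* `..._of_torsionFree` : if the only elements of `Γ` with a fixed point in `ℍ` are `±1`
  (e.g. `Γ = ±Γ₁(M)`, `4 ≤ M`), then `e = 1`;
* over `K = ℂ` (`ι` surjective): `e1` = `FinC1.E1 Z.R` VERBATIM, `intDict_of_torsionFree`
  = `PDiv1.IntDict Γ' Z.R jF` VERBATIM (any `Γ'`).
-/
import Fermat.Agent.DS.P3.DictIntK.OrbitK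
import Fermat.Agent.DS.P3.PDiv1
import Fermat.Agent.DS.P3.FinC1
import Fermat.Agent.S24.DegOne

set_option autoImplicit false
set_option linter.unusedSectionVars false
set_option linter.style.haveILetI false

noncomputable section

namespace Fermat.Agent.DS.P3.DictIntK.IntDictK

open UpperHalfPlane MulAction AlgebraicCurve IntermediateField
open Fermat.Agent.S24 Fermat.Agent.S24_helper82
open Fermat.Agent.LevelOne_helper29 (jInv jInv_smul)
open Fermat.Agent.S20_helper25 (Stab mem_Stab)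
open Fermat.Agent.DS.P3.DictIntK.OrbitK
open scoped MatrixGroups

variable {K : Type*} [Field K] [IsAlgClosed K] [CharZero K] {F : Type*} [Field F] [Algebra K F]
variable {jF : F} {Γ : Subgroup SL(2, ℤ)} (Z : Realization1 K jF Γ)

/-! ### point → place -/

/-- **point → place**: the order at a point `τ` with `j(τ) = ι c` is a positive multiple of the
order at a place of `F` over `j = c`. -/
theorem exists_place_of_point {τ : ℍ} {c : K} (hc : jInv τ = Z.ι c) :
    ∃ (P : Place K F) (e : ℕ), 0 < e ∧ 0 < P.ord (jF - algebraMap K F c) ∧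
      ∀ f : F, f ≠ 0 → ordM τ (Z.R f) = (e : ℤ) * P.ord f := by
  set D := Z.orbitData hc with hD
  set i : SL(2, ℤ) ⧸ Γ := QuotientGroup.mk 1 with hi
  have hpos := D.mult_pos i
  refine ⟨(D.place i).1, (D.mult i).toNat, ?_, (D.place i).2, fun f hf => ?_⟩
  · exact (Int.pos_iff_toNat_pos).mp hpos
  · rw [Int.toNat_of_nonneg hpos.le, ← D.eq_mult_mul_ord i hf]
    show ordM τ (Z.R f) = Z.V τ (QuotientGroup.mk 1) f
    rw [Z.V_mk, inv_one, one_smul]

/-! ### place → point: the exhaustion -/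

section Exhaust

open Fermat.Agent.S24_helper66 ModularGroup
open scoped Modular

variable [Fintype (SL(2, ℤ) ⧸ Γ)] [FiniteDimensional K⟮jF⟯ F]
  (hneg : (-1 : SL(2, ℤ)) ∈ Γ) (hinj : Function.Injective Z.conj)
  (hcard : Fintype.card (SL(2, ℤ) ⧸ Γ) = Module.finrank K⟮jF⟯ F)

include hneg hinj hcard

/-- the core: exhaustion at a base point `τ₀` whose stabiliser is generated (mod `±1`) by `s`. -/
theorem exists_coset_of_place {τ₀ : ℍ} {c : K} (hc : jInv τ₀ = Z.ι c)
    {s : SL(2, ℤ)} (hs : s • τ₀ = τ₀)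
    (hpow : s ^ (Nat.card (Stab τ₀) / 2) = 1 ∨ s ^ (Nat.card (Stab τ₀) / 2) = -1)
    (h2 : Nat.card (Stab τ₀) / 2 = 2 → s 0 0 + s 1 1 = 0)
    (h3 : Nat.card (Stab τ₀) / 2 = 3 → (s 0 0 + s 1 1) ^ 2 = 1)
    (v : Place K F) (hv : 0 < v.ord (jF - algebraMap K F c)) :
    ∃ (g : SL(2, ℤ)) (e : ℕ), 0 < e ∧
      (∀ f : F, f ≠ 0 → ordM (g⁻¹ • τ₀) (Z.R f) = (e : ℤ) * v.ord f) ∧
      e * Nat.card (MulAction.orbit (Subgroup.zpowers s)
        (QuotientGroup.mk g : SL(2, ℤ) ⧸ Γ)) = Nat.card (Stab τ₀) / 2 := by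
  obtain ⟨hfin, hN, hWA⟩ := Z.norm_package c
  haveI := hfin
  haveI : Nonempty (SL(2, ℤ) ⧸ Γ) := ⟨QuotientGroup.mk 1⟩
  obtain ⟨φ, hφ1, hφ2⟩ := Z.orbit_equiv hc K⟮jF⟯ hneg hN hWA (Z.hprod hinj hcard) hs hpow h2 h3
  obtain ⟨o, ho⟩ := φ.surjective ⟨v, hv⟩
  induction o using Quotient.inductionOn' with
  | h i =>
    induction i using QuotientGroup.induction_on with
    | H g =>
      set D := Z.orbitData hc with hD
      have hplace : D.place (QuotientGroup.mk g) = ⟨v, hv⟩ := by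
        rw [← hφ1]; exact ho
      have hpos := D.mult_pos (QuotientGroup.mk g)
      have hvplace : (D.place (QuotientGroup.mk g)).1 = v := by rw [hplace]
      refine ⟨g, (D.mult (QuotientGroup.mk g)).toNat, (Int.pos_iff_toNat_pos).mp hpos,
        fun f hf => ?_, ?_⟩
      · rw [Int.toNat_of_nonneg hpos.le, ← hvplace, ← D.eq_mult_mul_ord _ hf]
        show _ = Z.V τ₀ (QuotientGroup.mk g) f
        rw [Z.V_mk]
      · have h1 := hφ2 (Quotient.mk'' (QuotientGroup.mk g))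
        rw [ho, MulAction.orbitRel.Quotient.orbit_mk] at h1
        have h4 := D.mult_mul_ord_x (QuotientGroup.mk g)
        rw [hvplace] at h4
        have h5 : (v.ord (jF - algebraMap K F c) : ℤ) =
            Nat.card (MulAction.orbit (Subgroup.zpowers s)
              (QuotientGroup.mk g : SL(2, ℤ) ⧸ Γ)) := h1
        rw [h5, ← Int.toNat_of_nonneg hpos.le] at h4
        have h6 : ((D.e₀ : ℕ) : ℤ) = ((Nat.card (Stab τ₀) / 2 : ℕ) : ℤ) := rfl
        rw [h6] at h4
        exact_mod_cast h4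

/-- the three base points -/
theorem exists_base (c : K) :
    ∃ (τ₀ : ℍ) (s : SL(2, ℤ)), jInv τ₀ = Z.ι c ∧ s • τ₀ = τ₀ ∧
      (s ^ (Nat.card (Stab τ₀) / 2) = 1 ∨ s ^ (Nat.card (Stab τ₀) / 2) = -1) ∧
      (Nat.card (Stab τ₀) / 2 = 2 → s 0 0 + s 1 1 = 0) ∧
      (Nat.card (Stab τ₀) / 2 = 3 → (s 0 0 + s 1 1) ^ 2 = 1) ∧
      (Nat.card (Stab τ₀) / 2 = 1 ∨ Nat.card (Stab τ₀) / 2 = 2 ∨ Nat.card (Stab τ₀) / 2 = 3) ∧
      (Nat.card (Stab τ₀) / 2 ≠ 1 → s ≠ 1 ∧ s ≠ -1) := by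
  by_cases h1728 : Z.ι c = 1728
  · have hcardS : Nat.card (Stab UpperHalfPlane.I) / 2 = 2 := by
      rw [Fermat.Agent.S20_helper25.card_Stab_I]
    refine ⟨UpperHalfPlane.I, ModularGroup.S, ?_,
      mem_Stab.mp Fermat.Agent.S20_helper25.S_mem_Stab_I, ?_, fun _ => by decide,
      fun h => by rw [hcardS] at h; omega, Or.inr (Or.inl hcardS), fun _ => ⟨by decide, by decide⟩⟩
    · rw [h1728]; exact Fermat.Agent.LevelOne_helper29.jInv_I
    · rw [hcardS]; exact Or.inr Fermat.Agent.S20_helper25.S_sq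
  by_cases h0 : Z.ι c = 0
  · have hcardS : Nat.card (Stab ρ) / 2 = 3 := by
      rw [Fermat.Agent.S20_helper25.card_Stab_rho]
    refine ⟨ρ, ModularGroup.S * ModularGroup.T, ?_,
      mem_Stab.mp Fermat.Agent.S20_helper25.ST_mem_Stab_rho, ?_,
      fun h => by rw [hcardS] at h; omega, fun _ => by decide, Or.inr (Or.inr hcardS),
      fun _ => ⟨by decide, by decide⟩⟩
    · rw [h0]; exact Fermat.Agent.LevelOne_helper29.jInv_rho
    · rw [hcardS]; exact Or.inr Fermat.Agent.S20_helper25.ST_pow_three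
  · obtain ⟨τ₀, hτ₀⟩ := Fermat.Agent.S24.LocalOrder.exists_jInv_eq (Z.ι c)
    have hcardS : Nat.card (Stab τ₀) = 2 := by
      refine Fermat.Agent.S20_helper25.card_Stab_of_generic (fun g hg => h1728 ?_)
        (fun g hg => h0 ?_)
      · rw [← hτ₀]; exact (Fermat.Agent.S24.LocalOrder.jInv_eq_1728_iff_orbit τ₀).mpr ⟨g, hg⟩
      · rw [← hτ₀]; exact (Fermat.Agent.S24.LocalOrder.jInv_eq_zero_iff_orbit τ₀).mpr ⟨g, hg⟩
    have hhalf : Nat.card (Stab τ₀) / 2 = 1 := by rw [hcardS]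
    refine ⟨τ₀, 1, hτ₀, one_smul _ _, Or.inl (one_pow _), fun h => by rw [hhalf] at h; omega,
      fun h => by rw [hhalf] at h; omega, Or.inl hhalf, fun h => absurd hhalf h⟩

/-- **EXHAUSTION**: every place of `F` over `j = c` is a point of `ℍ`. -/
theorem exists_point_of_place_center (c : K) (v : Place K F)
    (hv : 0 < v.ord (jF - algebraMap K F c)) :
    ∃ (τ : ℍ) (e : ℕ), 0 < e ∧ ∀ f : F, f ≠ 0 → ordM τ (Z.R f) = (e : ℤ) * v.ord f := by
  obtain ⟨τ₀, s, hc, hs, hpow, h2, h3, -, -⟩ := exists_base Z hneg hinj hcard c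
  obtain ⟨g, e, he, hord, -⟩ :=
    exists_coset_of_place Z hneg hinj hcard hc hs hpow h2 h3 v hv
  exact ⟨g⁻¹ • τ₀, e, he, hord⟩

/-- **EXHAUSTION, torsion-free case**: if the only elements of `Γ` with a fixed point are `±1`,
every place of `F` over `j = c` is a point of `ℍ` with `e = 1`. -/
theorem exists_point_of_place_center_of_torsionFree
    (htf : ∀ γ ∈ Γ, ∀ τ : ℍ, γ • τ = τ → γ = 1 ∨ γ = -1)
    (c : K) (v : Place K F) (hv : 0 < v.ord (jF - algebraMap K F c)) :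
    ∃ τ : ℍ, ∀ f : F, f ≠ 0 → ordM τ (Z.R f) = v.ord f := by
  obtain ⟨τ₀, s, hc, hs, hpow, h2, h3, hcases, hs1⟩ := exists_base Z hneg hinj hcard c
  obtain ⟨g, e, he, hord, hmul⟩ :=
    exists_coset_of_place Z hneg hinj hcard hc hs hpow h2 h3 v hv
  refine ⟨g⁻¹ • τ₀, fun f hf => ?_⟩
  suffices he1 : e = 1 by rw [hord f hf, he1, Nat.cast_one, one_mul]
  by_contra hne
  -- then the orbit of the coset `[g]` is a singleton although `e₀ ≠ 1`
  have hprime : Nat.card (Stab τ₀) / 2 ≠ 1 ∧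
      Nat.card (MulAction.orbit (Subgroup.zpowers s)
        (QuotientGroup.mk g : SL(2, ℤ) ⧸ Γ)) = 1 := by
    rcases hcases with h | h | h
    · rw [h] at hmul
      exact absurd (Nat.eq_one_of_mul_eq_one_right hmul) hne
    · rw [h] at hmul
      have hdvd : e ∣ 2 := ⟨_, hmul.symm⟩
      have : e = 1 ∨ e = 2 := (Nat.dvd_prime Nat.prime_two).mp hdvd
      rcases this with h' | h'
      · exact absurd h' hne
      · rw [h'] at hmul
        refine ⟨by rw [h]; norm_num, by omega⟩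
    · rw [h] at hmul
      have hdvd : e ∣ 3 := ⟨_, hmul.symm⟩
      have : e = 1 ∨ e = 3 := (Nat.dvd_prime Nat.prime_three).mp hdvd
      rcases this with h' | h'
      · exact absurd h' hne
      · rw [h'] at hmul
        refine ⟨by rw [h]; norm_num, by omega⟩
  obtain ⟨hne1, hone⟩ := hprime
  -- `s` fixes the coset `[g]`
  have hfix : s • (QuotientGroup.mk g : SL(2, ℤ) ⧸ Γ) = QuotientGroup.mk g := by
    obtain ⟨hsub, -⟩ := Nat.card_eq_one_iff_unique.mp hone
    have h1 : (⟨s • (QuotientGroup.mk g : SL(2, ℤ) ⧸ Γ),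
        ⟨⟨s, Subgroup.mem_zpowers s⟩, rfl⟩⟩ :
        MulAction.orbit (Subgroup.zpowers s) (QuotientGroup.mk g : SL(2, ℤ) ⧸ Γ)) =
        ⟨QuotientGroup.mk g, MulAction.mem_orbit_self _⟩ := Subsingleton.elim _ _
    exact congrArg Subtype.val h1
  rw [MulAction.Quotient.smul_mk, QuotientGroup.eq, smul_eq_mul] at hfix
  have hmem : g⁻¹ * s * g ∈ Γ := by
    have := inv_mem hfix
    rw [mul_inv_rev, inv_inv, ← mul_assoc] at this
    exact this
  have hfixτ : (g⁻¹ * s * g) • (g⁻¹ • τ₀) = g⁻¹ • τ₀ := by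
    rw [mul_smul, mul_smul, smul_inv_smul, hs]
  have hpm := htf _ hmem _ hfixτ
  obtain ⟨hs1', hs2'⟩ := hs1 hne1
  rcases hpm with h | h
  · apply hs1'
    have : s = g * (g⁻¹ * s * g) * g⁻¹ := by group
    rw [this, h]; group
  · apply hs2'
    have : s = g * (g⁻¹ * s * g) * g⁻¹ := by group
    rw [this, h]
    simp

/-- `jF` is a generator of `F / K`. -/
theorem isGen : IsGen K jF := ⟨Z.transcendental_jF, inferInstance⟩

/-- **EXHAUSTION**: every place of `F` at which `j` has no pole is a point of `ℍ`. -/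
theorem exists_point_of_place (Q : Place K F) (hQ : ¬ Q.ord jF < 0) :
    ∃ (τ : ℍ) (e : ℕ), 0 < e ∧ ∀ f : F, f ≠ 0 → ordM τ (Z.R f) = (e : ℤ) * Q.ord f := by
  haveI : IsGen K jF := isGen Z hneg hinj hcard
  rcases PlaceB.pole_or_center Q jF with h | ⟨c, hc⟩
  · exact absurd h hQ
  · exact exists_point_of_place_center Z hneg hinj hcard c Q hc

theorem exists_point_of_place_of_torsionFree
    (htf : ∀ γ ∈ Γ, ∀ τ : ℍ, γ • τ = τ → γ = 1 ∨ γ = -1)
    (Q : Place K F) (hQ : ¬ Q.ord jF < 0) :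
    ∃ τ : ℍ, ∀ f : F, f ≠ 0 → ordM τ (Z.R f) = Q.ord f := by
  haveI : IsGen K jF := isGen Z hneg hinj hcard
  rcases PlaceB.pole_or_center Q jF with h | ⟨c, hc⟩
  · exact absurd h hQ
  · exact exists_point_of_place_center_of_torsionFree Z hneg hinj hcard htf c Q hc

end Exhaust

/-! ### The shapes consumed by P3 (`K = ℂ`) -/

section OverC

variable {F : Type*} [Field F] [Algebra ℂ F] {jF : F} {Γ : Subgroup SL(2, ℤ)}
  (Z : Realization1 ℂ jF Γ)

/-- **`FinC1.E1 Z.R` VERBATIM** (helper6): the order at a point of `ℍ` is a multiple of the order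
at a place of `F`.  Only needs that `ι` is onto (e.g. `ι = id`). -/
theorem e1 (hι : Function.Surjective Z.ι) : Fermat.Agent.DS.P3.FinC1.E1 Z.R := by
  intro τ
  obtain ⟨c, hc⟩ := hι (jInv τ)
  obtain ⟨P, e, -, -, h⟩ := exists_place_of_point Z hc.symm
  exact ⟨P, e, h⟩

variable [Fintype (SL(2, ℤ) ⧸ Γ)] [FiniteDimensional ℂ⟮jF⟯ F]

/-- **`PDiv1.IntDict Γ' Z.R jF` VERBATIM** (helper75) in the torsion-free case: the only elements
of `Γ` with a fixed point in `ℍ` are `±1` (`Γ = ±Γ₁(M)`, `4 ≤ M`); `Γ'` is arbitrary (it only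
occurs in the `e ∣ ord` clause, trivial for `e = 1`). -/
theorem intDict_of_torsionFree (hneg : (-1 : SL(2, ℤ)) ∈ Γ) (hinj : Function.Injective Z.conj)
    (hcard : Fintype.card (SL(2, ℤ) ⧸ Γ) = Module.finrank ℂ⟮jF⟯ F)
    (htf : ∀ γ ∈ Γ, ∀ τ : ℍ, γ • τ = τ → γ = 1 ∨ γ = -1) (Γ' : Subgroup SL(2, ℤ)) :
    Fermat.Agent.DS.P3.PDiv1.IntDict Γ' Z.R jF :=
  Fermat.Agent.DS.P3.PDiv1.intDict_of_unramified
    (fun Q hQ => exists_point_of_place_of_torsionFree Z hneg hinj hcard htf Q hQ)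

/-- the exhaustion in the general case (the `e ∣ ord` clause of `IntDict` is NOT included). -/
theorem exists_point_of_place_C (hneg : (-1 : SL(2, ℤ)) ∈ Γ)
    (hinj : Function.Injective Z.conj)
    (hcard : Fintype.card (SL(2, ℤ) ⧸ Γ) = Module.finrank ℂ⟮jF⟯ F)
    (Q : Place ℂ F) (hQ : ¬ Q.ord jF < 0) :
    ∃ (τ : ℍ) (e : ℕ), 0 < e ∧ ∀ u : F, u ≠ 0 → ordM τ (Z.R u) = (e : ℤ) * Q.ord u :=
  exists_point_of_place Z hneg hinj hcard Q hQ

end OverC

end Fermat.Agent.DS.P3.DictIntK.IntDictK
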