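/-
GATE-N / S48 J1-PORT, node P3-DICT-INT-K, the `X₁(M)` instance (helper96): the interior dictionary
of `ℂ(X₁(M)) = F1C ℂ M` for the realisation `realR D = (real1C D : F1C ℂ M →+* Mer)`
(helper30 `RealizeF1`, helper16 `DictCuspInst`):

* `e1_F1 D : FinC1.E1 (realR D)`                                       (helper6's input, any `M`);
* `intDict_F1 D (hM : 4 ≤ M) : PDiv1.IntDict (Gamma1 M) (realR D) (j1C M)`   (helper75's `hI`)

= the `hE1` / `hI` binders of helper94's `EigFinalHN.eig1All2_of_exp` at `F₀ := F1 M`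
(same `real` / `jF` as helper16's `cuspDict1`).
-/
import Fermat.Agent.DS.P3.DictIntK.IntDictK
import Fermat.Agent.DS.P3.DictCuspInst

set_option autoImplicit false
set_option linter.unusedSectionVars false
set_option linter.style.haveILetI false

noncomputable section

namespace Fermat.Agent.DS.P3.DictIntK.IntDictF1

open UpperHalfPlane ModularCurve IntermediateField CongruenceSubgroup AlgebraicCurve
open Fermat.Agent.S24 Fermat.Agent.S24_helper82
open Fermat.Agent.GJ.Dict.FieldGen
open Fermat.Agent.DS.P0 Fermat.Agent.DS.P1.FieldGenG Fermat.Agent.DS.P1.RealizeF1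
open Fermat.Agent.DS.P3.DictCuspInst
open Fermat.Agent.DS.P3.DictIntK.OrbitK Fermat.Agent.DS.P3.DictIntK.IntDictK
open scoped MatrixGroups

variable {M : ℕ} [NeZero M] (D : WeberData M)

/-- **the realisation of `F1C ℂ M`** in the `Realization1 ℂ` form (`ι = id`). -/
def realizationC : Realization1 ℂ (j1C M) (pm (Gamma1 M)) where
  ι := RingHom.id ℂ
  R := realR D
  R_const a := by
    show (real1C D) (algebraMap ℂ (F1C ℂ M) a) = _
    rw [AlgHom.commutes]
    rfl
  jH := jH
  jH_apply τ := Fermat.Agent.S24.InteriorCounts.jDil_one_eq_jInv τ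
  R_j := real1C_j D
  R_inv _ hγ f := compM_real1C D hγ f

@[simp] theorem realizationC_R : (realizationC D).R = realR D := rfl

/-- the conjugate embeddings of `F1C ℂ M` are pairwise distinct -/
theorem realizationC_conj_injective [FiniteDimensional ℂ⟮j1C M⟯ (F1C ℂ M)] :
    Function.Injective (realizationC D).conj := by
  intro q q' h
  have key : (Quotient.out q)⁻¹ * Quotient.out q' ∈ pm (Gamma1 M) := by
    apply sep_real1C D
    intro f
    have h1 := DFunLike.congr_fun h f
    rw [Realization1.conj_apply, Realization1.conj_apply] at h1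
    -- compM (out q)⁻¹ (R f) = compM (out q')⁻¹ (R f)
    have h2 := congrArg (compM (Quotient.out q')) h1
    rw [← compM_mul, ← compM_mul, inv_mul_cancel, compM_one] at h2
    exact h2
  have : (QuotientGroup.mk (Quotient.out q) : SL(2, ℤ) ⧸ pm (Gamma1 M)) =
      QuotientGroup.mk (Quotient.out q') := QuotientGroup.eq.mpr key
  rwa [QuotientGroup.out_eq', QuotientGroup.out_eq'] at this

/-- `±Γ₁(M)` acts freely modulo `±1` on `ℍ` for `4 ≤ M`. -/
theorem pm_Gamma1_free (hM : 4 ≤ M) :
    ∀ γ ∈ pm (Gamma1 M), ∀ τ : ℍ, γ • τ = τ → γ = 1 ∨ γ = -1 := by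
  intro γ hγ τ hfix
  have hfin : IsOfFinOrder γ := Fermat.Agent.DS.P3.PDiv1.isOfFinOrder_of_fixes hfix
  rcases mem_pm.mp hγ with h | h
  · exact Or.inl
      (Fermat.Agent.DS.P3.TorsionFree1.eq_one_of_isOfFinOrder_of_mem_Gamma1 hM h hfin)
  · right
    have hfin' : IsOfFinOrder (-γ) := by
      have hneg : IsOfFinOrder (-1 : SL(2, ℤ)) :=
        isOfFinOrder_iff_pow_eq_one.mpr ⟨2, by norm_num, by decide⟩
      have hcomm : Commute (-1 : SL(2, ℤ)) γ := by
        show -1 * γ = γ * -1
        simp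
      have := hcomm.isOfFinOrder_mul hneg hfin
      simpa using this
    have h1 := Fermat.Agent.DS.P3.TorsionFree1.eq_one_of_isOfFinOrder_of_mem_Gamma1 hM h hfin'
    rw [← neg_neg γ, h1]

/-- **(E1) for `X₁(M)`** = the `hE1` binder of helper94's `eig1All2_of_exp` (helper6 `FinC1.E1`). -/
theorem e1_F1 : Fermat.Agent.DS.P3.FinC1.E1 (realR D) :=
  e1 (realizationC D) Function.surjective_id

/-- **(IntDict) for `X₁(M)`, `4 ≤ M`** = the `hI` binder of helper94's `eig1All2_of_exp`
(helper75 `PDiv1.IntDict`). -/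
theorem intDict_F1 (hM : 4 ≤ M) :
    Fermat.Agent.DS.P3.PDiv1.IntDict (Gamma1 M) (realR D) (j1C M) := by
  haveI : FiniteDimensional ℂ⟮j1C M⟯ (F1C ℂ M) := (finrank_F1C_C D).1
  exact intDict_of_torsionFree (realizationC D) neg_one_mem_pm (realizationC_conj_injective D)
    (finrank_F1C_C D).2.symm (pm_Gamma1_free hM) (Gamma1 M)

/-- the unramified exhaustion itself -/
theorem exists_point_of_place_F1 (hM : 4 ≤ M) (Q : Place ℂ (F1C ℂ M))
    (hQ : ¬ Q.ord (j1C M) < 0) :
    ∃ τ : ℍ, ∀ u : F1C ℂ M, u ≠ 0 → ordM τ (realR D u) = Q.ord u := by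
  haveI : FiniteDimensional ℂ⟮j1C M⟯ (F1C ℂ M) := (finrank_F1C_C D).1
  exact exists_point_of_place_of_torsionFree (realizationC D) neg_one_mem_pm
    (realizationC_conj_injective D) (finrank_F1C_C D).2.symm (pm_Gamma1_free hM) Q hQ

end Fermat.Agent.DS.P3.DictIntK.IntDictF1
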